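import Fermat.Agent.SphereHecke.Gap
import Mathlib.Analysis.Matrix.Spectrum
import Mathlib.Analysis.SpecificLimits.Basic

/-!
# The operators of a prime power are small against the trivial eigenvalue

In a basis of eigenvectors of the operator of `p` those of `p ^ r` follow a recursion of order two,
whose roots, divided by `p ^ (j / 2 + 1)`, are less than one in absolute value by the gap.
-/

set_option autoImplicit false
set_option linter.unusedSectionVars false
set_option linter.style.haveILetI false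

noncomputable section

open Filter Matrix Quaternion
open scoped Topology Quaternion
open FA.QuaternionJL FA.QuaternionJLSystems

namespace FA.SphereHecke

/-- **A stable recursion of order two.** -/
theorem tendsto_zero_of_rec {a b : ℝ} (hb : 0 < b) (hb1 : b < 1) (ha : |a| < 1 + b) {f : ℕ → ℝ}
    (h : ∀ r, f (r + 2) = a * f (r + 1) - b * f r) : Tendsto f atTop (𝓝 0) := by
  have key : ∀ z : ℂ, z ^ 2 - a * z + b = 0 → ‖z‖ < 1 := fun z hz => by
    by_contra! h1
    have hre := congrArg Complex.re hz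
    have him := congrArg Complex.im hz
    simp [pow_two] at hre him
    have hn : 1 ≤ z.re ^ 2 + z.im ^ 2 := by
      have := one_le_pow₀ (n := 2) h1
      rw [← Complex.normSq_eq_norm_sq, Complex.normSq_apply] at this
      linarith
    rcases mul_eq_zero.1 (show z.im * (2 * z.re - a) = 0 by linear_combination him) with e | e
    · rw [e] at hre hn
      have hx : 1 ≤ |z.re| := by
        by_contra! hx
        nlinarith [abs_nonneg z.re, sq_abs z.re]
      have hax : a * z.re ≤ |a| * |z.re| := by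
        rw [← abs_mul]
        exact le_abs_self _
      nlinarith [sq_abs z.re, mul_nonneg (sub_nonneg.2 hx) (sub_nonneg.2 (hb1.le.trans hx)),
        mul_lt_mul_of_pos_right ha (lt_of_lt_of_le one_pos hx)]
    · have hxe : a = 2 * z.re := by linarith
      subst hxe
      nlinarith
  obtain ⟨s, hs⟩ := IsAlgClosed.exists_pow_nat_eq ((a : ℂ) ^ 2 - 4 * (b : ℂ)) zero_lt_two
  set α : ℂ := ((a : ℂ) + s) / 2 with hαdef
  set β : ℂ := ((a : ℂ) - s) / 2 with hβdef
  have hα : ‖α‖ < 1 := key α (by rw [hαdef]; linear_combination hs / 4)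
  have hβ : ‖β‖ < 1 := key β (by rw [hβdef]; linear_combination hs / 4)
  have hg : ∀ r, ((f (r + 1) : ℂ) - α * (f r : ℂ)) = β ^ r * ((f 1 : ℂ) - α * (f 0 : ℂ)) :=
    fun r => by
      induction r with
      | zero => simp
      | succ r ih =>
        rw [h r, pow_succ]
        push_cast
        have hsum : α + β = a := by rw [hαdef, hβdef]; ring
        have hprod : α * β = b := by rw [hαdef, hβdef]; linear_combination -hs / 4
        linear_combination β * ih - (f (r + 1) : ℂ) * hsum + (f r : ℂ) * hprod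
  set g0 : ℂ := (f 1 : ℂ) - α * (f 0 : ℂ)
  set q : ℝ := max ‖α‖ ‖β‖ with hqdef
  have hq : q < 1 := max_lt hα hβ
  have hq0 : 0 ≤ q := le_max_of_le_left (norm_nonneg _)
  set ρ : ℝ := (q + 1) / 2
  have hqρ : q < ρ := by simp only [ρ]; linarith
  have hρ1 : ρ < 1 := by simp only [ρ]; linarith
  have hρ0 : 0 ≤ ρ := by linarith
  set C : ℝ := max ‖(f 0 : ℂ)‖ (‖g0‖ / (ρ - q))
  have hC : ∀ r, ‖(f r : ℂ)‖ ≤ C * ρ ^ r := fun r => by
    induction r with
    | zero => simp [C]
    | succ r ih =>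
      have e : (f (r + 1) : ℂ) = α * (f r : ℂ) + β ^ r * g0 := by linear_combination hg r
      have hg0 : ‖g0‖ ≤ C * (ρ - q) := by
        rw [← div_le_iff₀ (sub_pos.2 hqρ)]
        exact le_max_right _ _
      calc ‖(f (r + 1) : ℂ)‖ ≤ ‖α‖ * ‖(f r : ℂ)‖ + ‖β‖ ^ r * ‖g0‖ := by
            rw [e]
            refine (norm_add_le _ _).trans (le_of_eq ?_)
            rw [norm_mul, norm_mul, norm_pow]
        _ ≤ q * (C * ρ ^ r) + ρ ^ r * (C * (ρ - q)) :=
            add_le_add (mul_le_mul (le_max_left _ _) ih (norm_nonneg _) hq0)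
              (mul_le_mul (pow_le_pow_left₀ (norm_nonneg _) ((le_max_right _ _).trans hqρ.le) r)
                hg0 (norm_nonneg _) (pow_nonneg hρ0 r))
        _ = C * ρ ^ (r + 1) := by ring
  refine squeeze_zero_norm (fun r => ?_) (by
    simpa using (tendsto_pow_atTop_nhds_zero_of_lt_one hρ0 hρ1).const_mul C)
  rw [← Complex.norm_real]
  exact hC r

/-- The eigenvalue of the operator of `p ^ r` for `μ` of that of `p`. -/
def powEigen (p j : ℕ) (μ : ℝ) : ℕ → ℝ
  | 0 => 1
  | 1 => μ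
  | r + 2 => μ * powEigen p j μ (r + 1) - (p : ℝ) ^ (j + 1) * powEigen p j μ r

theorem not_three_dvd_pow {p : ℕ} (hp : p.Prime) (h5 : 5 ≤ p) (r : ℕ) : ¬3 ∣ p ^ r := fun h => by
  have := (Nat.prime_dvd_prime_iff_eq Nat.prime_three hp).1 (Nat.prime_three.dvd_of_dvd_pow h)
  omega

theorem avgU_mul {j a b : ℕ} (hab : a.Coprime b) (ha : ¬3 ∣ a) (hb : ¬3 ∣ b) :
    avgU j a * avgU j b = avgU j (a * b) := by
  rw [avgU, avgU, avgU, ← twist_mul, (symRep j).avg_mul hab ha hb]

theorem avgU_pow_mulVec {j p : ℕ} (hp : p.Prime) (h5 : 5 ≤ p) {μ : ℝ} {v : Fin (j + 1) → ℂ}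
    (h : avgU j p *ᵥ v = (μ : ℂ) • v) :
    ∀ r, avgU j (p ^ r) *ᵥ v = (powEigen p j μ r : ℂ) • (avgU j 1 *ᵥ v) := by
  have h3 : ¬3 ∣ p := by simpa using not_three_dvd_pow hp h5 1
  have hp1 : avgU j p * avgU j 1 = avgU j p := by
    rw [avgU_mul p.coprime_one_right h3 (by norm_num), mul_one]
  have h1p : avgU j 1 * avgU j p = avgU j p := by
    rw [avgU_mul p.coprime_one_left (by norm_num) h3, one_mul]
  have hrec : ∀ r, avgU j p * avgU j (p ^ (r + 1)) =
      avgU j (p ^ (r + 2)) + (p : ℂ) ^ (j + 1) • avgU j (p ^ r) := fun r => by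
    rw [avgU, avgU, avgU, avgU, ← twist_mul, ← map_smul, ← map_add,
      (symRep j).avg_prime_pow hp (by omega) (by omega) r]
  intro r
  induction r using Nat.strong_induction_on with
  | _ r ih =>
    match r with
    | 0 => simp [powEigen]
    | 1 =>
      rw [pow_one, powEigen, ← Matrix.mulVec_smul, ← h, Matrix.mulVec_mulVec, h1p]
    | r + 2 =>
      have e := congrArg (· *ᵥ v) (hrec r)
      simp only [← Matrix.mulVec_mulVec, Matrix.add_mulVec, Matrix.smul_mulVec,
        ih (r + 1) (by omega), ih r (by omega), Matrix.mulVec_smul] at e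
      rw [Matrix.mulVec_mulVec, hp1, h, smul_smul] at e
      have e1 : (avgU j 1 * avgU j p) *ᵥ v = (μ : ℂ) • (avgU j 1 *ᵥ v) := by
        rw [← Matrix.mulVec_mulVec, h, Matrix.mulVec_smul]
      rw [h1p, h] at e1
      rw [← smul_smul, e1, smul_smul, smul_smul] at e
      rw [eq_sub_of_add_eq e.symm, ← sub_smul, powEigen]
      congr 1
      push_cast
      ring

/-- `p ^ (j / 2 + 1)`. -/
def scale (p j : ℕ) : ℝ := Real.sqrt ((p : ℝ) ^ j) * p

theorem scale_pos {p : ℕ} (hp : p.Prime) (j : ℕ) : 0 < scale p j :=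
  mul_pos (Real.sqrt_pos.2 (pow_pos (Nat.cast_pos.2 hp.pos) j)) (Nat.cast_pos.2 hp.pos)

theorem tendsto_powEigen {j p : ℕ} (hp : p.Prime) {μ : ℝ}
    (hμ : |μ| < ((p : ℝ) + 1) * Real.sqrt ((p : ℝ) ^ j)) :
    Tendsto (fun r => powEigen p j μ r / scale p j ^ r) atTop (𝓝 0) := by
  have hp0 : (0 : ℝ) < p := Nat.cast_pos.2 hp.pos
  have hs := scale_pos hp j
  have hs2 : scale p j ^ 2 = (p : ℝ) ^ j * (p : ℝ) ^ 2 := by
    rw [scale, mul_pow, Real.sq_sqrt (by positivity)]
  refine tendsto_zero_of_rec (a := μ / scale p j) (b := (p : ℝ)⁻¹) (by positivity)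
    (inv_lt_one_of_one_lt₀ (by exact_mod_cast hp.one_lt)) ?_ fun r => ?_
  · rw [abs_div, abs_of_pos hs, div_lt_iff₀ hs]
    refine hμ.trans_le (le_of_eq ?_)
    rw [scale]
    field_simp
  · show _ = _
    rw [powEigen, pow_add (scale p j) r 2, pow_succ (scale p j) r, sub_div, hs2]
    field_simp
    rw [hs2]
    ring

/-- **Decay on every vector.** -/
theorem tendsto_avgU_mulVec {j p : ℕ} (hj : 0 < j) (hp : p.Prime) (h5 : 5 ≤ p)
    (w : Fin (j + 1) → ℂ) (k : Fin (j + 1)) :
    Tendsto (fun r => (avgU j (p ^ r) *ᵥ w) k / ((scale p j : ℝ) : ℂ) ^ r) atTop (𝓝 0) := by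
  set hA := isHermitian_avgU j p
  set B := hA.eigenvectorBasis
  have hw : w = ∑ i, B.repr (WithLp.toLp 2 w) i • WithLp.ofLp (B i) := by
    have := congrArg WithLp.ofLp (B.sum_repr (WithLp.toLp 2 w))
    rw [WithLp.ofLp_sum] at this
    simpa using this.symm
  have hlim : ∀ i, Tendsto (fun r => ((powEigen p j (hA.eigenvalues i) r / scale p j ^ r : ℝ) : ℂ) *
      (avgU j 1 *ᵥ WithLp.ofLp (B i)) k) atTop (𝓝 0) := fun i => by
    have hne : WithLp.ofLp (B i) ≠ 0 := fun h => B.toBasis.ne_zero i (by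
      rw [OrthonormalBasis.coe_toBasis]
      exact WithLp.ofLp_injective 2 h)
    have he : avgU j p *ᵥ WithLp.ofLp (B i) =
        ((hA.eigenvalues i : ℝ) : ℂ) • WithLp.ofLp (B i) := by
      rw [hA.mulVec_eigenvectorBasis i]
      exact RCLike.real_smul_eq_coe_smul _ _
    have hb := norm_eigen_lt hj hp h5 hne he
    rw [Complex.norm_real, Real.norm_eq_abs] at hb
    simpa using ((Complex.continuous_ofReal.tendsto 0).comp (tendsto_powEigen hp hb)).mul_const
      ((avgU j 1 *ᵥ WithLp.ofLp (B i)) k)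
  have := (tendsto_finsetSum Finset.univ fun i _ =>
    (hlim i).const_mul (B.repr (WithLp.toLp 2 w) i))
  simp only [mul_zero, Finset.sum_const_zero] at this
  refine this.congr fun r => ?_
  rw [hw, Matrix.mulVec_sum, Finset.sum_apply, Finset.sum_div, ← hw]
  refine Finset.sum_congr rfl fun i _ => ?_
  have he : avgU j p *ᵥ WithLp.ofLp (B i) =
      ((hA.eigenvalues i : ℝ) : ℂ) • WithLp.ofLp (B i) := by
    rw [hA.mulVec_eigenvectorBasis i]
    exact RCLike.real_smul_eq_coe_smul _ _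
  rw [Matrix.mulVec_smul, avgU_pow_mulVec hp h5 he, Pi.smul_apply, Pi.smul_apply, smul_eq_mul,
    smul_eq_mul]
  push_cast
  ring

theorem tendsto_trace_avgU_mul {j p : ℕ} (hj : 0 < j) (hp : p.Prime) (h5 : 5 ≤ p)
    (M : Matrix (Fin (j + 1)) (Fin (j + 1)) ℂ) :
    Tendsto (fun r => (avgU j (p ^ r) * M).trace / ((scale p j : ℝ) : ℂ) ^ r) atTop (𝓝 0) := by
  have h := tendsto_finsetSum Finset.univ fun k _ =>
    tendsto_avgU_mulVec hj hp h5 (fun i => M i k) k
  simp only [Finset.sum_const_zero] at h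
  refine h.congr fun r => ?_
  rw [Matrix.trace, Finset.sum_div]
  exact Finset.sum_congr rfl fun k _ => by
    rw [Matrix.diag_apply, Matrix.mul_apply]
    rfl

/-- **Decay of the traces against a fixed matrix.** -/
theorem tendsto_sum_trace {j p : ℕ} (hj : 0 < j) (hp : p.Prime) (h5 : 5 ≤ p)
    {g : Matrix (Fin 2) (Fin 2) ℂ} (hg : g.det ≠ 0) :
    Tendsto (fun r => (∑ x ∈ normHz (p ^ r), (symMat j (toMat x * g)).trace) /
      ((scale p j : ℝ) : ℂ) ^ r) atTop (𝓝 0) := by
  have h := (tendsto_trace_avgU_mul hj hp h5 (twist j (symMat j g))).const_mul (24 : ℂ)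
  rw [mul_zero] at h
  refine h.congr fun r => ?_
  rw [avgU, ← twist_mul, trace_twist, QRep.avg, Matrix.smul_mul, Finset.sum_mul,
    Matrix.trace_smul, Matrix.trace_sum, smul_eq_mul, mul_div_assoc', ← mul_assoc,
    mul_inv_cancel₀ (by norm_num : (24 : ℂ) ≠ 0), one_mul]
  exact congrArg (· / _) (Finset.sum_congr rfl fun x _ => by rw [symMat_mul j hg]; rfl)

end FA.SphereHecke

end
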