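import Fermat.Agent.QuaternionJLSystems.Operators
import Mathlib.Analysis.SpecialFunctions.Sqrt
import Mathlib.LinearAlgebra.Matrix.Hermitian

/-!
# The invariant inner product on the binary forms

The symmetric power of the adjoint is the adjoint of the symmetric power for the inner product
with binomial weights. Conjugation of a quaternion permutes the elements of each norm, so the
averages over them are self-adjoint.
-/

set_option autoImplicit false
set_option linter.unusedSectionVars false
set_option linter.style.haveILetI false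

noncomputable section

open Polynomial Quaternion Matrix
open scoped Quaternion ComplexConjugate
open FA.QuaternionJL FA.QuaternionJLSystems

namespace FA.SphereHecke

theorem fin_coeff_eq {n : ℕ} {a b : Fin n → ℂ}
    (h : ∀ z : ℂ, ∑ i, a i * z ^ (i : ℕ) = ∑ i, b i * z ^ (i : ℕ)) : a = b := by
  have e : ∑ i : Fin n, C (a i) * X ^ (i : ℕ) = ∑ i : Fin n, C (b i) * X ^ (i : ℕ) :=
    Polynomial.funext fun z => by simpa [eval_finsetSum] using h z
  funext i
  simpa [finsetSum_coeff, Fin.val_inj] using congrArg (Polynomial.coeff · i) e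

theorem sum_choose (j : ℕ) (A B : ℂ) :
    ∑ k : Fin (j + 1), (j.choose k : ℂ) * (A ^ (k : ℕ) * B ^ (j - k)) = (A + B) ^ j := by
  rw [add_pow, Finset.sum_range]
  exact Finset.sum_congr rfl fun k _ => by ring

/-- **The binomial weights exchange a matrix with its transpose.** -/
theorem choose_symMat (j : ℕ) (g : Matrix (Fin 2) (Fin 2) ℂ) (k l : Fin (j + 1)) :
    (j.choose k : ℂ) * symMat j g k l = (j.choose l : ℂ) * symMat j gᵀ l k := by
  have h : ∀ z w : ℂ,
      ∑ k : Fin (j + 1), (∑ l, (j.choose k : ℂ) * symMat j g k l * z ^ (l : ℕ)) * w ^ (k : ℕ) =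
        ∑ k : Fin (j + 1),
          (∑ l : Fin (j + 1), (j.choose l : ℂ) * symMat j gᵀ l k * z ^ (l : ℕ)) * w ^ (k : ℕ) := by
    intro z w
    trans (w * (g 0 0 * z + g 0 1) + (g 1 0 * z + g 1 1)) ^ j
    · rw [← sum_choose]
      refine Finset.sum_congr rfl fun k _ => ?_
      simp only [mul_assoc, ← Finset.mul_sum]
      rw [sum_symMat, mul_pow]
      ring
    · rw [show w * (g 0 0 * z + g 0 1) + (g 1 0 * z + g 1 1) =
        z * (g 0 0 * w + g 1 0) + (g 0 1 * w + g 1 1) by ring, ← sum_choose]
      simp only [Finset.sum_mul]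
      rw [Finset.sum_comm]
      refine Finset.sum_congr rfl fun l _ => ?_
      rw [Finset.sum_congr rfl fun k _ => show
        (j.choose l : ℂ) * symMat j gᵀ l k * z ^ (l : ℕ) * w ^ (k : ℕ) =
          (j.choose l : ℂ) * z ^ (l : ℕ) * (symMat j gᵀ l k * w ^ (k : ℕ)) by ring,
        ← Finset.mul_sum, sum_symMat, mul_pow]
      simp only [transpose_apply]
      ring
  exact congrFun (fin_coeff_eq fun z => congrFun (fin_coeff_eq fun w => h z w) k) l

theorem symMat_map_conj (j : ℕ) (g : Matrix (Fin 2) (Fin 2) ℂ) :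
    symMat j (g.map (starRingEnd ℂ)) = (symMat j g).map (starRingEnd ℂ) := by
  ext k l
  have e : symRow j (g.map (starRingEnd ℂ)) k = (symRow j g k).map (starRingEnd ℂ) := by
    simp [symRow]
  simp only [symMat, Matrix.of_apply, Matrix.map_apply, e, Polynomial.coeff_map]

/-- The square root of a binomial weight. -/
def rootC (j : ℕ) (k : Fin (j + 1)) : ℂ := (Real.sqrt (j.choose k) : ℝ)

theorem rootC_sq (j : ℕ) (k : Fin (j + 1)) : rootC j k * rootC j k = (j.choose k : ℂ) := by
  rw [rootC, ← Complex.ofReal_mul, Real.mul_self_sqrt (Nat.cast_nonneg _), Complex.ofReal_natCast]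

theorem rootC_ne_zero (j : ℕ) (k : Fin (j + 1)) : rootC j k ≠ 0 := fun h => by
  have := rootC_sq j k
  rw [h, mul_zero] at this
  exact (Nat.choose_pos (Nat.le_of_lt_succ k.2)).ne' (by exact_mod_cast this.symm)

theorem conj_rootC (j : ℕ) (k : Fin (j + 1)) : conj (rootC j k) = rootC j k :=
  Complex.conj_ofReal _

/-- Conjugation by the roots of the weights. -/
def twist (j : ℕ) :
    Matrix (Fin (j + 1)) (Fin (j + 1)) ℂ →ₗ[ℂ] Matrix (Fin (j + 1)) (Fin (j + 1)) ℂ where
  toFun A := Matrix.of fun k l => rootC j k * A k l * (rootC j l)⁻¹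
  map_add' A B := by
    ext k l
    simp [mul_add, add_mul]
  map_smul' c A := by
    ext k l
    simp [mul_left_comm, mul_assoc]

theorem twist_apply (j : ℕ) (A : Matrix (Fin (j + 1)) (Fin (j + 1)) ℂ) (k l : Fin (j + 1)) :
    twist j A k l = rootC j k * A k l * (rootC j l)⁻¹ := rfl

theorem twist_one (j : ℕ) : twist j 1 = 1 := by
  ext k l
  rcases eq_or_ne k l with rfl | h
  · simp [twist_apply, rootC_ne_zero]
  · simp [twist_apply, Matrix.one_apply_ne h]

theorem twist_mul (j : ℕ) (A B : Matrix (Fin (j + 1)) (Fin (j + 1)) ℂ) :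
    twist j (A * B) = twist j A * twist j B := by
  ext k l
  simp only [twist_apply, Matrix.mul_apply, Finset.mul_sum, Finset.sum_mul]
  refine Finset.sum_congr rfl fun i _ => ?_
  have := rootC_ne_zero j i
  field_simp

theorem trace_twist (j : ℕ) (A : Matrix (Fin (j + 1)) (Fin (j + 1)) ℂ) :
    (twist j A).trace = A.trace :=
  Finset.sum_congr rfl fun k _ => by
    show rootC j k * A k k * (rootC j k)⁻¹ = A k k
    rw [mul_comm (rootC j k), mul_inv_cancel_right₀ (rootC_ne_zero j k)]

theorem twist_mulVec (j : ℕ) (A : Matrix (Fin (j + 1)) (Fin (j + 1)) ℂ) (v : Fin (j + 1) → ℂ) :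
    twist j A *ᵥ (fun k => rootC j k * v k) = fun k => rootC j k * (A *ᵥ v) k := by
  funext k
  simp only [Matrix.mulVec, dotProduct, twist_apply, Finset.mul_sum]
  refine Finset.sum_congr rfl fun l _ => ?_
  have := rootC_ne_zero j l
  field_simp

/-- The unitary model of the symmetric power. -/
def unitMat (j : ℕ) (g : Matrix (Fin 2) (Fin 2) ℂ) : Matrix (Fin (j + 1)) (Fin (j + 1)) ℂ :=
  twist j (symMat j g)

/-- **The adjoint.** -/
theorem unitMat_conjTranspose (j : ℕ) (g : Matrix (Fin 2) (Fin 2) ℂ) :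
    (unitMat j g)ᴴ = unitMat j gᴴ := by
  ext k l
  rw [Matrix.conjTranspose_apply, unitMat, unitMat, twist_apply, twist_apply,
    show gᴴ = gᵀ.map (starRingEnd ℂ) from rfl, symMat_map_conj, Matrix.map_apply, RCLike.star_def,
    map_mul, map_mul, map_inv₀, conj_rootC, conj_rootC]
  have h := congrArg conj (choose_symMat j g l k)
  rw [← rootC_sq, ← rootC_sq] at h
  simp only [map_mul, conj_rootC] at h
  have := rootC_ne_zero j k
  have := rootC_ne_zero j l
  field_simp
  linear_combination h

theorem toMat_star (x : ℍ[ℚ]) : toMat (star x) = (toMat x)ᴴ := by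
  ext a b
  fin_cases a <;> fin_cases b <;> simp [toMat]

theorem star_mem_normHz {n : ℕ} {x : ℍ[ℚ]} (hx : x ∈ normHz n) : star x ∈ normHz n := by
  obtain ⟨h1, h2⟩ := mem_normHz.1 hx
  exact mem_normHz.2 ⟨FA.HurwitzQ.star_mem h1, by rw [Quaternion.normSq_star, h2]⟩

/-- The average in the unitary model. -/
def avgU (j n : ℕ) : Matrix (Fin (j + 1)) (Fin (j + 1)) ℂ := twist j ((symRep j).avg n)

theorem avgU_eq (j n : ℕ) :
    avgU j n = (24 : ℂ)⁻¹ • ∑ x ∈ normHz n, unitMat j (toMat x) := by
  rw [avgU, QRep.avg, map_smul, map_sum]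
  rfl

/-- **The averages are Hermitian.** -/
theorem isHermitian_avgU (j n : ℕ) : (avgU j n).IsHermitian := by
  rw [Matrix.IsHermitian, avgU_eq, Matrix.conjTranspose_smul, Matrix.conjTranspose_sum]
  congr 1
  · simp
  · exact Finset.sum_nbij' star star (fun x hx => star_mem_normHz hx)
      (fun x hx => star_mem_normHz hx) (fun x _ => star_star x) (fun x _ => star_star x)
      fun x _ => by rw [unitMat_conjTranspose, toMat_star]

/-- The inner product with binomial weights. -/
def weightedInner (j : ℕ) (v w : Fin (j + 1) → ℂ) : ℂ :=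
  ∑ k : Fin (j + 1), (j.choose k : ℂ) * v k * conj (w k)

/-- **Self-adjointness.** -/
theorem weightedInner_avg (j n : ℕ) (v w : Fin (j + 1) → ℂ) :
    weightedInner j ((symRep j).avg n *ᵥ v) w = weightedInner j v ((symRep j).avg n *ᵥ w) := by
  have hA : ∀ k l : Fin (j + 1), (j.choose k : ℂ) * (symRep j).avg n k l =
      (j.choose l : ℂ) * conj ((symRep j).avg n l k) := fun k l => by
    have h := congrFun (congrFun (isHermitian_avgU j n).eq k) l
    rw [Matrix.conjTranspose_apply, avgU, twist_apply, twist_apply, RCLike.star_def, map_mul,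
      map_mul, map_inv₀, conj_rootC, conj_rootC] at h
    have := rootC_ne_zero j k
    have := rootC_ne_zero j l
    field_simp at h
    rw [← rootC_sq, ← rootC_sq]
    linear_combination -h
  simp only [weightedInner, Matrix.mulVec, dotProduct, Finset.mul_sum, Finset.sum_mul, map_sum]
  rw [Finset.sum_comm]
  refine Finset.sum_congr rfl fun l _ => Finset.sum_congr rfl fun k _ => ?_
  rw [map_mul]
  linear_combination (v l * conj (w k)) * hA k l

theorem weightedInner_self (j : ℕ) (v : Fin (j + 1) → ℂ) :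
    weightedInner j v v =
      ((∑ k : Fin (j + 1), (j.choose k : ℝ) * Complex.normSq (v k) : ℝ) : ℂ) := by
  push_cast
  exact Finset.sum_congr rfl fun k _ => by rw [mul_assoc, Complex.mul_conj]

/-- **Real eigenvalues.** -/
theorem im_eq_zero_of_eigen {j n : ℕ} {μ : ℂ} {v : Fin (j + 1) → ℂ} (hv : v ≠ 0)
    (h : (symRep j).avg n *ᵥ v = μ • v) : μ.im = 0 := by
  have e := weightedInner_avg j n v v
  rw [h] at e
  have hs : weightedInner j v v ≠ 0 := by
    rw [weightedInner_self]
    refine Complex.ofReal_ne_zero.2 (ne_of_gt ?_)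
    obtain ⟨k, hk⟩ := Function.ne_iff.1 hv
    refine Finset.sum_pos' (fun i _ => mul_nonneg (Nat.cast_nonneg _) (Complex.normSq_nonneg _))
      ⟨k, Finset.mem_univ k, mul_pos ?_ (Complex.normSq_pos.2 hk)⟩
    exact Nat.cast_pos.2 (Nat.choose_pos (Nat.le_of_lt_succ k.2))
  have e1 : μ * weightedInner j v v = conj μ * weightedInner j v v := by
    simp only [weightedInner, Pi.smul_apply, smul_eq_mul, map_mul] at e ⊢
    rw [Finset.mul_sum, Finset.mul_sum]
    refine Eq.trans ?_ (e.trans ?_) <;> exact Finset.sum_congr rfl fun k _ => by ring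
  exact Complex.conj_eq_iff_im.1 (mul_right_cancel₀ hs e1).symm

end FA.SphereHecke

end
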