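import Fermat.Agent.SphereHecke.Sphere

/-!
# Quaternions and sums of four squares on the sphere

Doubling identifies the elements of norm `n` with the representations of `4 n` by four squares.
-/

set_option autoImplicit false
set_option linter.unusedSectionVars false
set_option linter.style.haveILetI false

noncomputable section

open Filter MeasureTheory Metric
open scoped Topology RealInnerProductSpace Quaternion
open FA.QuaternionJL FA.QuaternionJLSystems

namespace FA.SphereHecke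

theorem sum_normHz_fours {M : Type*} [AddCommMonoid M] (n : ℕ) (F : ℍ[ℚ] → M) :
    ∑ x ∈ normHz n, F x =
      ∑ v ∈ FA.HurwitzQ.fours (4 * n), F (toQ ⟨v.1, v.2.1, v.2.2.1, v.2.2.2⟩) := by
  rw [normHz, Finset.sum_map]
  refine Finset.sum_nbij' (fun p => (p.1, p.2.1, p.2.2.1, p.2.2.2))
    (fun v => ⟨v.1, v.2.1, v.2.2.1, v.2.2.2⟩) (fun p hp => ?_) (fun v hv => ?_)
    (fun p _ => rfl) (fun v _ => rfl) fun p _ => rfl
  · rw [mem_normPts, sqNorm] at hp
    rw [FA.HurwitzQ.mem_fours]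
    push_cast
    linarith
  · rw [FA.HurwitzQ.mem_fours] at hv
    rw [mem_normPts, sqNorm]
    push_cast at hv
    linarith

/-- The point of the sphere of a representation. -/
def squaresPoint (n : ℕ) (v : ℤ × ℤ × ℤ × ℤ) : R4 :=
  (2 * Real.sqrt n)⁻¹ • WithLp.toLp 2 ![(v.1 : ℝ), (v.2.1 : ℝ), (v.2.2.1 : ℝ), (v.2.2.2 : ℝ)]

theorem spherePoint_toQ (n : ℕ) (v : ℤ × ℤ × ℤ × ℤ) :
    spherePoint n (toQ ⟨v.1, v.2.1, v.2.2.1, v.2.2.2⟩) = squaresPoint n v := by
  refine WithLp.ofLp_injective 2 (funext fun i => ?_)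
  fin_cases i <;> simp [spherePoint, squaresPoint, vec4, toQ] <;> ring

/-- **Quaternions of norm `p ^ r` on the sphere.** -/
theorem tendsto_quaternions {p : ℕ} (hp : p.Prime) (h5 : 5 ≤ p) {φ : R4 → ℝ} (hφ : Continuous φ) :
    Tendsto (fun r => meanOn (normHz (p ^ r)) fun x => φ (spherePoint (p ^ r) x)) atTop
      (𝓝 (⨍ u in ball (0 : R4) 1, φ (‖u‖⁻¹ • u))) := by
  rw [← integral_eq_average hφ]
  exact tendsto_sphere (y := fun r => spherePoint (p ^ r)) (fun r => normHz_nonempty hp h5 r)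
    (fun r x hx => norm_spherePoint (pow_ne_zero r hp.ne_zero) hx)
    (fun e he ψ hψ => tendsto_marginal hp h5 he hψ) hφ

/-- **Representations of `4 p ^ r` on the sphere.** -/
theorem tendsto_fourSquares {p : ℕ} (hp : p.Prime) (h5 : 5 ≤ p) {φ : R4 → ℝ} (hφ : Continuous φ) :
    Tendsto (fun r => meanOn (FA.HurwitzQ.fours (4 * p ^ r)) fun v => φ (squaresPoint (p ^ r) v))
      atTop (𝓝 (⨍ u in ball (0 : R4) 1, φ (‖u‖⁻¹ • u))) := by
  refine (tendsto_quaternions hp h5 hφ).congr fun r => ?_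
  rw [meanOn, meanOn, sum_normHz_fours, card_normHz]
  simp only [spherePoint_toQ]

end FA.SphereHecke

end
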