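import Fermat.Agent.SphereHecke.Twist
import Mathlib.Analysis.Real.Sqrt

/-!
# The gap below the trivial eigenvalue

An eigenvalue as large as the trivial one forces every element of norm `p` to act on the
eigenvector by one scalar, hence the units to fix it; an element of norm `p` with non-zero trace is
of infinite order modulo scalars, so the vector is a monomial in its eigenlines and all units of
trace `1` would commute with it.
-/

set_option autoImplicit false
set_option linter.unusedSectionVars false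
set_option linter.style.haveILetI false

noncomputable section

open Polynomial Quaternion Matrix
open scoped Quaternion ComplexConjugate
open FA.QuaternionJL FA.QuaternionJLSystems

namespace FA.SphereHecke

theorem lucas_dvd {t : ℤ} {p : ℕ} {a d : ℂ} (ht : a + d = (t : ℂ)) (hn : a * d = (p : ℂ)) :
    ∀ m : ℕ, (∃ z : ℤ, (z : ℂ) = a ^ (m + 1) + d ^ (m + 1) ∧ (p : ℤ) ∣ z - t ^ (m + 1)) ∧
      ∃ z : ℤ, (z : ℂ) = a ^ (m + 2) + d ^ (m + 2) ∧ (p : ℤ) ∣ z - t ^ (m + 2) := by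
  intro m
  induction m with
  | zero =>
    refine ⟨⟨t, by simp [ht], by simp⟩, ⟨t ^ 2 - 2 * p, ?_, ⟨-2, by ring⟩⟩⟩
    push_cast
    rw [← ht, ← hn]
    ring
  | succ m ih =>
    obtain ⟨⟨z, hz, hzd⟩, ⟨w, hw, hwd⟩⟩ := ih
    refine ⟨⟨w, hw, hwd⟩, ⟨t * w - p * z, ?_, ?_⟩⟩
    · push_cast
      rw [hw, hz, ← ht, ← hn]
      ring
    · rw [show t * w - p * z - t ^ (m + 1 + 2) = t * (w - t ^ (m + 2)) + (p : ℤ) * (-z) by ring]
      exact dvd_add (hwd.mul_left _) (dvd_mul_right _ _)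

/-- The roots for a trace prime to the norm have no ratio of finite order. -/
theorem pow_ne_pow {t : ℤ} {p : ℕ} (hp : p.Prime) (htp : ¬(p : ℤ) ∣ t) {a d : ℂ}
    (ht : a + d = (t : ℂ)) (hn : a * d = (p : ℂ)) (m : ℕ) : a ^ (m + 1) ≠ d ^ (m + 1) := fun h => by
  obtain ⟨z, hz, hzd⟩ := (lucas_dvd ht hn m).1
  have e : z ^ 2 = 4 * (p : ℤ) ^ (m + 1) := by
    have : (z : ℂ) ^ 2 = 4 * (p : ℂ) ^ (m + 1) := by
      rw [hz, ← hn, mul_pow, h]
      ring
    exact_mod_cast this
  have hp' : Prime (p : ℤ) := Nat.prime_iff_prime_int.1 hp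
  have hpz : (p : ℤ) ∣ z := hp'.dvd_of_dvd_pow (n := 2) ⟨4 * (p : ℤ) ^ m, by rw [e]; ring⟩
  have := dvd_sub hpz hzd
  rw [sub_sub_cancel] at this
  exact htp (hp'.dvd_of_dvd_pow this)

theorem distinct_monomials {t : ℤ} {p : ℕ} (hp : p.Prime) (htp : ¬(p : ℤ) ∣ t) {a d : ℂ}
    (ht : a + d = (t : ℂ)) (hn : a * d = (p : ℂ)) {j k l : ℕ} (hl : l ≤ j) (hkl : k < l) :
    a ^ k * d ^ (j - k) ≠ a ^ l * d ^ (j - l) := fun h => by
  have hpC : (p : ℂ) ≠ 0 := Nat.cast_ne_zero.2 hp.ne_zero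
  have ha : a ≠ 0 := left_ne_zero_of_mul (hn ▸ hpC)
  have hd : d ≠ 0 := right_ne_zero_of_mul (hn ▸ hpC)
  obtain ⟨m, rfl⟩ := Nat.exists_eq_add_of_lt hkl
  rw [show k + m + 1 = k + (m + 1) by ring, pow_add,
    show j - k = (j - (k + (m + 1))) + (m + 1) by omega, pow_add] at h
  refine pow_ne_pow hp htp ht hn m (mul_left_cancel₀ (mul_ne_zero (pow_ne_zero k ha)
    (pow_ne_zero (j - (k + (m + 1))) hd)) ?_).symm
  linear_combination h

theorem symMat_diag (j : ℕ) (a d : ℂ) (k l : Fin (j + 1)) :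
    symMat j !![a, 0; 0, d] k l = if k = l then a ^ (k : ℕ) * d ^ (j - k) else 0 := by
  show ((C a * X + C 0) ^ (k : ℕ) * (C 0 * X + C d) ^ (j - k)).coeff l = _
  rw [C_0, zero_mul, add_zero, zero_add, mul_pow, ← C_pow, ← C_pow, mul_right_comm, ← C_mul,
    coeff_C_mul_X_pow]
  simp [Fin.ext_iff, eq_comm]

theorem coeff_linear_pow_choose (a b : ℂ) (n k : ℕ) :
    ((C a * X + C b) ^ n).coeff k = a ^ k * b ^ (n - k) * n.choose k := by
  have e : ∀ i, (C a * X) ^ i * C b ^ (n - i) * (n.choose i : ℂ[X]) =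
      C (a ^ i * b ^ (n - i) * (n.choose i : ℂ)) * X ^ i := fun i => by
    simp only [C_mul, C_pow, map_natCast]
    ring
  rw [add_pow, finsetSum_coeff]
  simp only [e, coeff_C_mul_X_pow]
  rw [Finset.sum_ite_eq]
  simp only [Finset.mem_range]
  split_ifs with h
  · rfl
  · rw [Nat.choose_eq_zero_of_lt (by omega), Nat.cast_zero, mul_zero]

theorem toMat_sub (x y : ℍ[ℚ]) : toMat (x - y) = toMat x - toMat y := by
  ext a b
  fin_cases a <;> fin_cases b <;> simp [toMat] <;> ring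

/-- The quaternion `(1 + i + j + k) / 2`. -/
def omega₁ : ℍ[ℚ] := ⟨1 / 2, 1 / 2, 1 / 2, 1 / 2⟩

/-- The quaternion `(1 + i + j - k) / 2`. -/
def omega₂ : ℍ[ℚ] := ⟨1 / 2, 1 / 2, 1 / 2, -1 / 2⟩

theorem omega_mem : (omega₁ ∈ normHz 1 ∧ omega₁.re = 1 / 2) ∧
    (omega₂ ∈ normHz 1 ∧ omega₂.re = 1 / 2) := by
  refine ⟨⟨mem_normHz.2 ⟨⟨(0, 0, 0, 1), ?_⟩, ?_⟩, rfl⟩,
    ⟨mem_normHz.2 ⟨⟨(0, 0, -1, 1), ?_⟩, ?_⟩, rfl⟩⟩
  · ext <;> simp [omega₁, FA.HurwitzQ.ofCoords]
  · rw [normSq_def']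
    norm_num [omega₁]
  · ext <;> norm_num [omega₂, FA.HurwitzQ.ofCoords]
  · rw [normSq_def']
    norm_num [omega₂]

theorem scalar_of_commute {x : ℍ[ℚ]} (h₁ : omega₁ * x = x * omega₁) (h₂ : omega₂ * x = x * omega₂) :
    x.imI = 0 ∧ x.imJ = 0 ∧ x.imK = 0 := by
  simp [Quaternion.ext_iff, omega₁] at h₁
  simp [Quaternion.ext_iff, omega₂] at h₂
  obtain ⟨-, a1, a2, a3⟩ := h₁
  obtain ⟨-, b1, b2, b3⟩ := h₂
  refine ⟨?_, ?_, ?_⟩ <;> linarith

/-- An element of norm `p` with trace prime to `p`. -/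
theorem exists_trace_prime {p : ℕ} (hp : p.Prime) (h5 : 5 ≤ p) :
    ∃ x ∈ normHz p, ∃ t : ℤ, 2 * x.re = (t : ℚ) ∧ ¬(p : ℤ) ∣ t := by
  obtain ⟨x, hx⟩ : (normHz p).Nonempty := Finset.card_pos.1 (by
    rw [card_normHz_prime hp (by omega)]
    omega)
  obtain ⟨hxH, hxn⟩ := mem_normHz.1 hx
  have hx0 : x.re ≠ 0 ∨ x.imI ≠ 0 ∨ x.imJ ≠ 0 ∨ x.imK ≠ 0 := by
    by_contra! h
    rw [normSq_def', h.1, h.2.1, h.2.2.1, h.2.2.2] at hxn
    exact hp.ne_zero (by exact_mod_cast (by simpa using hxn.symm : (p : ℚ) = 0))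
  obtain ⟨y, hy, hy0⟩ : ∃ y ∈ normHz p, y.re ≠ 0 := by
    have key : ∀ u : ℍ[ℚ], u ∈ normHz 1 → u * x ∈ normHz p := fun u hu =>
      mem_normHz.2 ⟨mul_mem (mem_normHz.1 hu).1 hxH, by
        rw [map_mul, (mem_normHz.1 hu).2, hxn, Nat.cast_one, one_mul]⟩
    have hu : ∀ b c d : ℤ, b ^ 2 + c ^ 2 + d ^ 2 = 1 →
        FA.HurwitzQ.lip 0 b c d ∈ normHz 1 := fun b c d h =>
      mem_normHz.2 ⟨FA.HurwitzQ.lip_mem _ _ _ _, by
        rw [normSq_def']
        simp only [FA.HurwitzQ.lip]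
        exact_mod_cast (by linarith : (0 : ℤ) ^ 2 + b ^ 2 + c ^ 2 + d ^ 2 = 1)⟩
    rcases hx0 with h | h | h | h
    · exact ⟨x, hx, h⟩
    · exact ⟨_, key _ (hu 1 0 0 (by norm_num)), by simpa [FA.HurwitzQ.lip] using h⟩
    · exact ⟨_, key _ (hu 0 1 0 (by norm_num)), by simpa [FA.HurwitzQ.lip] using h⟩
    · exact ⟨_, key _ (hu 0 0 1 (by norm_num)), by simpa [FA.HurwitzQ.lip] using h⟩
  refine ⟨y, hy, quatTr y, two_re hy, fun hdvd => hy0 ?_⟩
  have h1 := two_re hy
  have h2 : (quatTr y : ℚ) ^ 2 ≤ 4 * (p : ℚ) := by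
    rw [← (mem_normHz.1 hy).2, normSq_def', ← h1]
    nlinarith [sq_nonneg y.imI, sq_nonneg y.imJ, sq_nonneg y.imK]
  have h3 : quatTr y ^ 2 ≤ 4 * (p : ℤ) := by exact_mod_cast h2
  have hpz : (5 : ℤ) ≤ p := by exact_mod_cast h5
  obtain ⟨q, hq⟩ := hdvd
  have : q = 0 := by
    by_contra hq0
    have : 1 ≤ q ^ 2 := by
      have : 0 < q ^ 2 := by positivity
      omega
    rw [hq] at h3
    nlinarith [mul_le_mul_of_nonneg_left this (sq_nonneg (p : ℤ))]
  rw [hq, this, mul_zero, Int.cast_zero] at h1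
  linarith

/-- A matrix with trace prime to its norm is diagonalisable. -/
theorem exists_diag {t : ℤ} {p : ℕ} (hp : p.Prime) (htp : ¬(p : ℤ) ∣ t)
    {g : Matrix (Fin 2) (Fin 2) ℂ}
    (ht : g.trace = (t : ℂ)) (hn : g.det = (p : ℂ)) (hlow : g 1 0 = 0 → g 0 1 = 0) :
    ∃ (P : Matrix (Fin 2) (Fin 2) ℂ) (a d : ℂ), P.det ≠ 0 ∧ a + d = (t : ℂ) ∧ a * d = (p : ℂ) ∧
      g * P = P * !![a, 0; 0, d] := by
  rw [trace_fin_two] at ht
  rw [det_fin_two] at hn
  by_cases hc : g 1 0 = 0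
  · refine ⟨1, g 0 0, g 1 1, by simp, ht, by rw [← hn, hc, mul_zero, sub_zero], ?_⟩
    rw [Matrix.mul_one, Matrix.one_mul]
    ext a b
    fin_cases a <;> fin_cases b <;> simp [hc, hlow hc]
  · obtain ⟨s, hs⟩ := IsAlgClosed.exists_pow_nat_eq ((t : ℂ) ^ 2 - 4 * (p : ℂ)) zero_lt_two
    set a : ℂ := ((t : ℂ) + s) / 2
    set d : ℂ := ((t : ℂ) - s) / 2
    have hs1 : a + d = t := by
      simp only [a, d]
      ring
    have hs2 : a * d = p := by
      simp only [a, d]
      linear_combination (-1 / 4 : ℂ) * hs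
    have had : a ≠ d := fun h => by
      have := pow_ne_pow hp htp hs1 hs2 0
      rw [zero_add, pow_one, pow_one] at this
      exact this h
    refine ⟨!![a - g 1 1, d - g 1 1; g 1 0, g 1 0], a, d, ?_, hs1, hs2, ?_⟩
    · rw [det_fin_two]
      simp only [Matrix.of_apply, Matrix.cons_val', Matrix.cons_val_zero, Matrix.cons_val_one,
        Matrix.cons_val_fin_one]
      rw [show (a - g 1 1) * g 1 0 - (d - g 1 1) * g 1 0 = (a - d) * g 1 0 by ring]
      exact mul_ne_zero (sub_ne_zero.2 had) hc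
    · ext i l
      fin_cases i <;> fin_cases l <;> simp [Matrix.mul_apply, Fin.sum_univ_two]
      · linear_combination a * ht - a * hs1 - hn + hs2
      · linear_combination d * ht - d * hs1 - hn + hs2
      · ring
      · ring

/-- **No vector is moved by one scalar by all elements of norm `p`.** -/
theorem no_common_eigenvector {j p : ℕ} (hj : 0 < j) (hp : p.Prime) (h5 : 5 ≤ p)
    {v : Fin (j + 1) → ℂ} (hv : v ≠ 0) {c : ℂ} (hc : c ≠ 0)
    (h : ∀ x ∈ normHz p, symMat j (toMat x) *ᵥ v = c • v) : False := by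
  obtain ⟨x, hx, t, hxt, htp⟩ := exists_trace_prime hp h5
  obtain ⟨hxH, hxn⟩ := mem_normHz.1 hx
  have hfix : ∀ u ∈ normHz 1, symMat j (toMat u) *ᵥ v = v := fun u hu => by
    have hux : u * x ∈ normHz p := mem_normHz.2 ⟨mul_mem (mem_normHz.1 hu).1 hxH, by
      rw [map_mul, (mem_normHz.1 hu).2, hxn, Nat.cast_one, one_mul]⟩
    have e := h _ hux
    rw [symMat_mul_good j u (normHz_ne_zero hp.ne_zero hx), ← Matrix.mulVec_mulVec, h x hx,
      Matrix.mulVec_smul] at e
    exact smul_right_injective _ hc e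
  obtain ⟨P, a, d, hP, had, hadp, hgP⟩ := exists_diag hp htp (g := toMat x)
    (by rw [trace_toMat, hxt]; push_cast; rfl) (by rw [det_toMat, hxn]; push_cast; rfl)
    (by
      intro h0
      simp [toMat, Complex.ext_iff] at h0 ⊢
      exact h0)
  have hU : IsUnit P.det := hP.isUnit
  have hPi : P⁻¹.det ≠ 0 := by
    rw [det_nonsing_inv, Ring.inverse_eq_inv']
    exact inv_ne_zero hP
  set w := symMat j P⁻¹ *ᵥ v
  have hback : symMat j P *ᵥ w = v := by
    rw [Matrix.mulVec_mulVec, ← symMat_mul j hPi, Matrix.mul_nonsing_inv _ hU, symMat_one,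
      Matrix.one_mulVec]
  have hdiag : symMat j !![a, 0; 0, d] *ᵥ w = c • w := by
    have hg : (toMat x).det ≠ 0 := by
      rw [det_toMat, hxn]
      simpa using hp.ne_zero
    have e : !![a, 0; 0, d] * P⁻¹ = P⁻¹ * toMat x := by
      have e1 : toMat x = P * (!![a, 0; 0, d] * P⁻¹) := by
        rw [← Matrix.mul_assoc, ← hgP, Matrix.mul_assoc, Matrix.mul_nonsing_inv _ hU,
          Matrix.mul_one]
      rw [e1, ← Matrix.mul_assoc, Matrix.nonsing_inv_mul _ hU, Matrix.one_mul]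
    rw [Matrix.mulVec_mulVec, ← symMat_mul j hPi, e, symMat_mul j hg, ← Matrix.mulVec_mulVec,
      h x hx, Matrix.mulVec_smul]
  have hval : ∀ l : Fin (j + 1), a ^ (l : ℕ) * d ^ (j - l) * w l = c * w l := fun l => by
    have := congrFun hdiag l
    simpa [Matrix.mulVec, dotProduct, symMat_diag] using this
  obtain ⟨k, hk⟩ := Function.ne_iff.1 (fun h0 : w = 0 => hv (by rw [← hback, h0,
    Matrix.mulVec_zero]))
  have hzero : ∀ l, l ≠ k → w l = 0 := fun l hl => by
    by_contra hwl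
    have e := (mul_right_cancel₀ hwl (hval l)).trans (mul_right_cancel₀ hk (hval k)).symm
    rcases lt_or_gt_of_ne (Fin.val_ne_of_ne hl) with hlt | hlt
    · exact distinct_monomials hp htp had hadp (Nat.le_of_lt_succ k.2) hlt e
    · exact distinct_monomials hp htp had hadp (Nat.le_of_lt_succ l.2) hlt e.symm
  have hcomm : ∀ u ∈ normHz 1, u.re = 1 / 2 → u * x = x * u := fun u hu hre => by
    set m := P⁻¹ * (toMat u * P) with hm
    have hu1 : (toMat u).det = 1 := by
      rw [det_toMat, (mem_normHz.1 hu).2]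
      simp
    have htr : m 0 0 + m 1 1 = 1 := by
      rw [← trace_fin_two, hm, Matrix.trace_mul_comm, Matrix.mul_assoc,
        Matrix.mul_nonsing_inv _ hU, Matrix.mul_one, trace_toMat, hre]
      norm_num
    have hfixw : symMat j m *ᵥ w = w := by
      have hPu : (toMat u * P).det ≠ 0 := by
        rw [det_mul, hu1, one_mul]
        exact hP
      rw [hm, symMat_mul j hPu, symMat_mul j hP, ← Matrix.mulVec_mulVec, ← Matrix.mulVec_mulVec,
        hback, hfix u hu]
    have hcol : ∀ l, l ≠ k → (symRow j m l).coeff k = 0 := fun l hl => by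
      have e := congrFun hfixw l
      rw [hzero l hl] at e
      simp only [Matrix.mulVec, dotProduct] at e
      rw [Finset.sum_eq_single k (fun i _ hi => by rw [hzero i hi, mul_zero]) (by simp)] at e
      exact (mul_eq_zero.1 e).resolve_right hk
    have hbottom : (k : ℕ) ≠ 0 → m 1 0 ^ (k : ℕ) * m 1 1 ^ (j - k) = 0 := fun hk0 => by
      have := hcol ⟨0, Nat.succ_pos j⟩ fun e => hk0 (by rw [← e])
      simp only [symRow, pow_zero, one_mul, Nat.sub_zero, coeff_linear_pow_choose] at this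
      exact (mul_eq_zero.1 this).resolve_right (Nat.cast_ne_zero.2
        (Nat.choose_pos (Nat.le_of_lt_succ k.2)).ne')
    have htop : (k : ℕ) ≠ j → m 0 0 ^ (k : ℕ) * m 0 1 ^ (j - k) = 0 := fun hkj => by
      have := hcol (Fin.last j) fun e => hkj (by rw [← e, Fin.val_last])
      simp only [symRow, Fin.val_last, Nat.sub_self, pow_zero, mul_one,
        coeff_linear_pow_choose] at this
      exact (mul_eq_zero.1 this).resolve_right (Nat.cast_ne_zero.2
        (Nat.choose_pos (Nat.le_of_lt_succ k.2)).ne')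
    have htri : m 1 0 * m 0 1 = 0 := by
      rcases Nat.eq_zero_or_pos (k : ℕ) with hk0 | hk0
      · have := htop (by omega)
        rw [hk0, pow_zero, one_mul, Nat.sub_zero] at this
        rw [eq_zero_of_pow_eq_zero this, mul_zero]
      · rcases mul_eq_zero.1 (hbottom (by omega)) with h0 | h0
        · rw [eq_zero_of_pow_eq_zero h0, zero_mul]
        · rcases eq_or_ne (k : ℕ) j with hkj | hkj
          · rw [hkj, Nat.sub_self, pow_zero] at h0
            exact absurd h0 one_ne_zero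
          · rcases mul_eq_zero.1 (htop hkj) with h1 | h1
            · rw [eq_zero_of_pow_eq_zero h0, eq_zero_of_pow_eq_zero h1, add_zero] at htr
              exact absurd htr zero_ne_one
            · rw [eq_zero_of_pow_eq_zero h1, mul_zero]
    have hcomb : toMat (u * x - x * u) * P =
        P * (m * !![a, 0; 0, d] - !![a, 0; 0, d] * m) := by
      rw [toMat_sub, toMat_mul, toMat_mul, Matrix.sub_mul, Matrix.mul_sub]
      congr 1
      · rw [Matrix.mul_assoc, hgP, hm, ← Matrix.mul_assoc P, ← Matrix.mul_assoc P,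
          Matrix.mul_nonsing_inv _ hU, Matrix.one_mul, Matrix.mul_assoc]
      · rw [hm, ← Matrix.mul_assoc P, ← hgP, Matrix.mul_assoc (toMat x) P, ← Matrix.mul_assoc P,
          Matrix.mul_nonsing_inv _ hU, Matrix.one_mul, Matrix.mul_assoc]
    have hdet := congrArg Matrix.det hcomb
    have h0 : (m * !![a, 0; 0, d] - !![a, 0; 0, d] * m).det = 0 := by
      simp [det_fin_two, Matrix.mul_apply, Matrix.vecMul, dotProduct, Fin.sum_univ_two]
      linear_combination (a - d) ^ 2 * htri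
    rw [det_mul, det_mul, h0, mul_zero, mul_eq_zero, or_iff_left hP, det_toMat] at hdet
    exact sub_eq_zero.1 (normSq_eq_zero.1 (by exact_mod_cast hdet))
  obtain ⟨⟨hm1, hr1⟩, ⟨hm2, hr2⟩⟩ := omega_mem
  obtain ⟨hI, hJ, hK⟩ := scalar_of_commute (hcomm _ hm1 hr1) (hcomm _ hm2 hr2)
  refine htp ((Nat.prime_iff_prime_int.1 hp).dvd_of_dvd_pow (n := 2) ⟨4, ?_⟩)
  rw [normSq_def', hI, hJ, hK] at hxn
  have : (t : ℚ) ^ 2 = (p : ℚ) * 4 := by
    rw [← hxt]
    linear_combination 4 * hxn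
  exact_mod_cast this

theorem quadratic_norm (j : ℕ) (u : Fin (j + 1) → ℂ) :
    star u ⬝ᵥ u = ((∑ k, Complex.normSq (u k) : ℝ) : ℂ) := by
  push_cast
  exact Finset.sum_congr rfl fun k _ => by
    rw [Complex.normSq_eq_conj_mul_self, Pi.star_apply, RCLike.star_def]

/-- **The spectral gap.** -/
theorem norm_eigen_lt {j p : ℕ} (hj : 0 < j) (hp : p.Prime) (h5 : 5 ≤ p) {μ : ℂ}
    {v : Fin (j + 1) → ℂ} (hv : v ≠ 0) (h : avgU j p *ᵥ v = μ • v) :
    ‖μ‖ < ((p : ℝ) + 1) * Real.sqrt ((p : ℝ) ^ j) := by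
  set c : ℂ := μ / ((p : ℂ) + 1) with hc
  have hp1 : (p : ℂ) + 1 ≠ 0 := by exact_mod_cast Nat.succ_ne_zero p
  have hcard : (normHz p).card = 24 * (p + 1) := card_normHz_prime hp (by omega)
  set W : ℍ[ℚ] → Fin (j + 1) → ℂ := fun x => unitMat j (toMat x) *ᵥ v
  have hsum : ∑ x ∈ normHz p, W x = (24 * μ) • v := by
    rw [avgU_eq, Matrix.smul_mulVec, Matrix.sum_mulVec] at h
    rw [mul_smul, ← h, smul_smul]
    norm_num
    rfl
  have hiso : ∀ x ∈ normHz p, star (W x) ⬝ᵥ W x = (p : ℂ) ^ j * (star v ⬝ᵥ v) := fun x hx => by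
    obtain ⟨hxH, hxn⟩ := mem_normHz.1 hx
    have hx0 := normHz_ne_zero hp.ne_zero hx
    have e : (unitMat j (toMat x))ᴴ * unitMat j (toMat x) =
        (p : ℂ) ^ j • (1 : Matrix (Fin (j + 1)) (Fin (j + 1)) ℂ) := by
      rw [unitMat_conjTranspose, ← toMat_star, unitMat, unitMat, ← twist_mul,
        ← symMat_mul_good j _ hx0, Quaternion.star_mul_self, hxn, Quaternion.coe_natCast,
        ← mul_one (p : ℍ[ℚ]), symMat_natMul j p one_ne_zero, toMat_one, symMat_one, map_smul,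
        twist_one]
    rw [Matrix.star_mulVec, ← Matrix.dotProduct_mulVec, Matrix.mulVec_mulVec, e,
      Matrix.smul_mulVec, Matrix.one_mulVec, dotProduct_smul, smul_eq_mul]
  have hvar : ∑ x ∈ normHz p, star (W x - c • v) ⬝ᵥ (W x - c • v) =
      (24 * ((p : ℂ) + 1)) * ((p : ℂ) ^ j - conj c * c) * (star v ⬝ᵥ v) := by
    simp only [star_sub, StarModule.star_smul, sub_dotProduct, dotProduct_sub, smul_dotProduct,
      dotProduct_smul, smul_eq_mul, RCLike.star_def, Finset.sum_sub_distrib, ← Finset.mul_sum]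
    rw [← sum_dotProduct, ← dotProduct_sum, ← star_sum, hsum, Finset.sum_congr rfl hiso,
      Finset.sum_const, Finset.sum_const, hcard, StarModule.star_smul, smul_dotProduct,
      dotProduct_smul, RCLike.star_def, show 24 * μ = 24 * ((p : ℂ) + 1) * c by rw [hc]; field_simp]
    simp only [nsmul_eq_mul, smul_eq_mul, map_mul, map_add, map_one, map_natCast, map_ofNat]
    push_cast
    ring
  simp only [quadratic_norm] at hvar
  have hR : ∑ x ∈ normHz p, ∑ k, Complex.normSq ((W x - c • v) k) =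
      24 * ((p : ℝ) + 1) * ((p : ℝ) ^ j - Complex.normSq c) * ∑ k, Complex.normSq (v k) := by
    rw [← Complex.normSq_eq_conj_mul_self] at hvar
    exact_mod_cast hvar
  have hvpos : 0 < ∑ k, Complex.normSq (v k) := by
    obtain ⟨k, hk⟩ := Function.ne_iff.1 hv
    exact Finset.sum_pos' (fun i _ => Complex.normSq_nonneg _)
      ⟨k, Finset.mem_univ k, Complex.normSq_pos.2 hk⟩
  have hlt : Complex.normSq c < (p : ℝ) ^ j := by
    by_contra! hge
    have hle : ∑ x ∈ normHz p, ∑ k, Complex.normSq ((W x - c • v) k) ≤ 0 := by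
      rw [hR]
      exact mul_nonpos_of_nonpos_of_nonneg
        (mul_nonpos_of_nonneg_of_nonpos (by positivity) (sub_nonpos.2 hge)) hvpos.le
    have hall : ∀ x ∈ normHz p, W x = c • v := fun x hx => by
      have h1 := (Finset.sum_eq_zero_iff_of_nonneg fun y _ =>
        Finset.sum_nonneg fun k _ => Complex.normSq_nonneg _).1 (le_antisymm hle
          (Finset.sum_nonneg fun y _ => Finset.sum_nonneg fun k _ => Complex.normSq_nonneg _)) x hx
      funext k
      have h2 := (Finset.sum_eq_zero_iff_of_nonneg fun i _ => Complex.normSq_nonneg _).1 h1 k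
        (Finset.mem_univ k)
      simpa [sub_eq_zero] using Complex.normSq_eq_zero.1 h2
    have hc0 : c ≠ 0 := fun e => by
      rw [e, map_zero] at hge
      exact absurd hge (not_le.2 (pow_pos (Nat.cast_pos.2 hp.pos) j))
    set u : Fin (j + 1) → ℂ := fun k => (rootC j k)⁻¹ * v k
    have hvu : (fun k => rootC j k * u k) = v := funext fun k => by
      simp only [u, mul_inv_cancel_left₀ (rootC_ne_zero j k)]
    refine no_common_eigenvector hj hp h5 (v := u) (fun e => hv (by rw [← hvu, e]; simp; rfl)) hc0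
      fun x hx => ?_
    have := hall x hx
    simp only [W, unitMat] at this
    rw [← hvu, twist_mulVec] at this
    funext k
    refine mul_left_cancel₀ (rootC_ne_zero j k) ?_
    rw [congrFun this k, Pi.smul_apply, Pi.smul_apply, smul_eq_mul, smul_eq_mul]
    ring
  rw [hc, map_div₀, Complex.normSq_eq_norm_sq, show (p : ℂ) + 1 = (((p : ℝ) + 1 : ℝ) : ℂ) by
    push_cast; ring, Complex.normSq_ofReal, div_lt_iff₀ (by positivity)] at hlt
  have hsq := Real.mul_self_sqrt (show (0 : ℝ) ≤ (p : ℝ) ^ j by positivity)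
  refine lt_of_pow_lt_pow_left₀ 2 (by positivity) ?_
  calc ‖μ‖ ^ 2 < _ := hlt
    _ = _ := by linear_combination -((p : ℝ) + 1) ^ 2 * hsq

end FA.SphereHecke

end
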