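import Fermat.Agent.SphereHecke.Decay
import Fermat.Agent.QuaternionTrace.Plancherel
import Mathlib.Analysis.InnerProductSpace.PiL2

/-!
# Every coordinate becomes semicircle distributed

The Chebyshev polynomial of a coordinate is the normalised trace of a symmetric power of the
quaternion times a fixed unit, so its mean over the elements of norm `p ^ r` tends to zero.
-/

set_option autoImplicit false
set_option linter.unusedSectionVars false
set_option linter.style.haveILetI false

noncomputable section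

open Filter Matrix Quaternion
open scoped Topology Quaternion RealInnerProductSpace
open FA.QuaternionJL FA.QuaternionJLSystems
open FA.QuaternionTrace (chebyU chebyU_zero chebyU_one chebyU_add_two continuous_chebyU)
open FA.VerticalSatoTate (moment moment_zero moment_succ semiMean tendsto_of_moments)

namespace FA.SphereHecke

/-- The four dimensional space. -/
abbrev R4 : Type := EuclideanSpace ℝ (Fin 4)

/-- The coordinates of a quaternion. -/
def vec4 (x : ℍ[ℚ]) : R4 :=
  WithLp.toLp 2 ![(x.re : ℝ), (x.imI : ℝ), (x.imJ : ℝ), (x.imK : ℝ)]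

/-- The point of the sphere of a quaternion of norm `n`. -/
def spherePoint (n : ℕ) (x : ℍ[ℚ]) : R4 := (Real.sqrt n)⁻¹ • vec4 x

theorem inner_four (v w : R4) : ⟪v, w⟫ = v 0 * w 0 + v 1 * w 1 + v 2 * w 2 + v 3 * w 3 := by
  rw [PiLp.inner_apply, Fin.sum_univ_four]
  simp [mul_comm]

theorem norm_spherePoint {n : ℕ} (hn : n ≠ 0) {x : ℍ[ℚ]} (hx : x ∈ normHz n) :
    ‖spherePoint n x‖ = 1 := by
  have h : ‖vec4 x‖ ^ 2 = (n : ℝ) := by
    rw [← real_inner_self_eq_norm_sq, inner_four]
    have := congrArg (fun q : ℚ => (q : ℝ)) (mem_normHz.1 hx).2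
    rw [normSq_def'] at this
    push_cast at this
    simp only [vec4, Matrix.cons_val_zero, Matrix.cons_val_one, Matrix.cons_val]
    linarith
  rw [spherePoint, norm_smul, norm_inv, Real.norm_of_nonneg (Real.sqrt_nonneg _), ← h,
    Real.sqrt_sq (norm_nonneg _), inv_mul_cancel₀]
  intro e
  rw [e, zero_pow two_ne_zero] at h
  exact hn (by exact_mod_cast h.symm)

/-- The matrix pairing with a direction. -/
def dirMat (g : R4) : Matrix (Fin 2) (Fin 2) ℂ :=
  !![(g 0 : ℂ) - g 1 * Complex.I, -(g 2 : ℂ) - g 3 * Complex.I;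
    (g 2 : ℂ) - g 3 * Complex.I, (g 0 : ℂ) + g 1 * Complex.I]

theorem det_dirMat {g : R4} (hg : ‖g‖ = 1) : (dirMat g).det = 1 := by
  have h := real_inner_self_eq_norm_sq g
  rw [hg, inner_four, one_pow] at h
  have h' := congrArg (fun r : ℝ => (r : ℂ)) h
  push_cast at h'
  simp only [dirMat, det_fin_two, Matrix.of_apply, Matrix.cons_val', Matrix.cons_val_zero,
    Matrix.cons_val_one, Matrix.cons_val_fin_one]
  linear_combination h' - ((g 1 : ℂ) ^ 2 + (g 3 : ℂ) ^ 2) * Complex.I_sq

theorem trace_toMat_dirMat (x : ℍ[ℚ]) (g : R4) :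
    (toMat x * dirMat g).trace = ((2 * ⟪vec4 x, g⟫ : ℝ) : ℂ) := by
  rw [inner_four]
  simp only [trace_fin_two, Matrix.mul_apply, Fin.sum_univ_two, toMat, dirMat, Matrix.of_apply,
    Matrix.cons_val', Matrix.cons_val_zero, Matrix.cons_val_one, Matrix.cons_val_fin_one, vec4,
    Matrix.cons_val]
  push_cast
  linear_combination
    -2 * ((x.imI : ℂ) * (g 1 : ℂ) + (x.imK : ℂ) * (g 3 : ℂ)) * Complex.I_sq

theorem geom_cheby {a d : ℂ} {s τ : ℝ} (h1 : a + d = ((s * τ : ℝ) : ℂ))
    (h2 : a * d = ((s ^ 2 : ℝ) : ℂ)) :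
    ∀ j : ℕ, ∑ k ∈ Finset.range (j + 1), a ^ k * d ^ (j - k) = ((s ^ j * chebyU j τ : ℝ) : ℂ) := by
  have hrec : ∀ i, ∑ k ∈ Finset.range (i + 2), a ^ k * d ^ (i + 1 - k) =
      d * (∑ k ∈ Finset.range (i + 1), a ^ k * d ^ (i - k)) + a ^ (i + 1) := fun i => by
    rw [Finset.sum_range_succ, Finset.mul_sum, Nat.sub_self, pow_zero, mul_one]
    refine congrArg (· + _) (Finset.sum_congr rfl fun k hk => ?_)
    rw [Finset.mem_range] at hk
    rw [show i + 1 - k = (i - k) + 1 by omega]
    ring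
  push_cast at h1 h2
  intro j
  induction j using Nat.strong_induction_on with
  | _ j ih =>
    match j with
    | 0 => simp [chebyU_zero]
    | 1 =>
      simp [Finset.sum_range_succ, chebyU_one]
      linear_combination h1
    | i + 2 =>
      rw [chebyU_add_two]
      have e1 := ih (i + 1) (by omega)
      have e0 := ih i (by omega)
      rw [hrec i] at e1
      rw [hrec (i + 1), hrec i]
      push_cast at e1 e0 ⊢
      linear_combination ((s : ℂ) * τ) * e1 - (s : ℂ) ^ 2 * e0 +
        (d * (∑ k ∈ Finset.range (i + 1), a ^ k * d ^ (i - k)) + a ^ (i + 1)) * h1 -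
        (∑ k ∈ Finset.range (i + 1), a ^ k * d ^ (i - k)) * h2

/-- **The trace as a Chebyshev polynomial.** -/
theorem trace_symMat_cheby (j : ℕ) {g : Matrix (Fin 2) (Fin 2) ℂ} {s τ : ℝ}
    (ht : g.trace = ((s * τ : ℝ) : ℂ)) (hn : g.det = ((s ^ 2 : ℝ) : ℂ)) (hs : s ≠ 0) :
    (symMat j g).trace = ((s ^ j * chebyU j τ : ℝ) : ℂ) := by
  rw [trace_fin_two] at ht
  rw [det_fin_two] at hn
  by_cases hc : g 1 0 = 0
  · rw [show g = !![g 0 0, g 0 1; 0, g 1 1] by rw [← hc]; exact eta_fin_two g, trace_upper]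
    exact geom_cheby ht (by rw [← hn, hc, mul_zero, sub_zero]) j
  · obtain ⟨w, hw⟩ := IsAlgClosed.exists_pow_nat_eq
      (((s * τ : ℝ) : ℂ) ^ 2 - 4 * ((s ^ 2 : ℝ) : ℂ)) zero_lt_two
    set t : ℂ := ((s * τ : ℝ) : ℂ)
    set n : ℂ := ((s ^ 2 : ℝ) : ℂ) with hndef
    set r : ℂ := (t + w) / 2
    have hr : r ^ 2 - t * r + n = 0 := by
      simp only [r]
      linear_combination hw / 4
    set P : Matrix (Fin 2) (Fin 2) ℂ := !![r - g 1 1, 1; g 1 0, 0]
    have hP : P.det ≠ 0 := by
      simp [P, det_fin_two, hc]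
    have hgP : g * P = P * !![r, 1; 0, t - r] := by
      simp only [P]
      ext i l
      fin_cases i <;> fin_cases l <;> simp [Matrix.mul_apply, Fin.sum_univ_two]
      · linear_combination -hr + r * ht - hn
      · linear_combination ht
      · ring
    have hPi : P⁻¹.det ≠ 0 := by
      rw [det_nonsing_inv, Ring.inverse_eq_inv']
      exact inv_ne_zero hP
    have hg : g = P * (!![r, 1; 0, t - r] * P⁻¹) := by
      rw [← Matrix.mul_assoc, ← hgP, Matrix.mul_assoc, Matrix.mul_nonsing_inv _ (Ne.isUnit hP),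
        Matrix.mul_one]
    have hT : (!![r, 1; 0, t - r] * P⁻¹).det ≠ 0 := fun h0 => by
      have : n = 0 := by rw [← hn, ← det_fin_two, hg, det_mul, h0, mul_zero]
      rw [hndef, Complex.ofReal_eq_zero] at this
      exact hs ((pow_eq_zero_iff two_ne_zero).1 this)
    rw [hg, symMat_mul j hT, symMat_mul j hPi, ← Matrix.mul_assoc, Matrix.trace_mul_cycle,
      ← symMat_mul j hP, Matrix.nonsing_inv_mul _ (Ne.isUnit hP), symMat_one, Matrix.one_mul,
      trace_upper]
    exact geom_cheby (by ring) (by linear_combination -hr) j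

/-- The mean over a finite set. -/
def meanOn {α : Type*} (s : Finset α) (f : α → ℝ) : ℝ := (∑ x ∈ s, f x) / (s.card : ℝ)

theorem meanOn_add {α : Type*} (s : Finset α) (f h : α → ℝ) :
    meanOn s (fun x => f x + h x) = meanOn s f + meanOn s h := by
  rw [meanOn, Finset.sum_add_distrib, add_div]
  rfl

theorem meanOn_congr {α : Type*} {s : Finset α} {f h : α → ℝ} (e : ∀ x ∈ s, f x = h x) :
    meanOn s f = meanOn s h := by
  rw [meanOn, meanOn, Finset.sum_congr rfl e]

theorem sqrt_pow_nat {x : ℝ} (hx : 0 ≤ x) (k : ℕ) : Real.sqrt (x ^ k) = Real.sqrt x ^ k := by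
  induction k with
  | zero => simp
  | succ k ih => rw [pow_succ, Real.sqrt_mul (pow_nonneg hx k), ih, pow_succ]

theorem card_normHz_ge {p : ℕ} (hp : p.Prime) (h5 : 5 ≤ p) (r : ℕ) :
    24 * p ^ r ≤ (normHz (p ^ r)).card := by
  rw [card_normHz, FA.HurwitzQ.card_fours_four_odd ((hp.odd_of_ne_two (by omega)).pow),
    ArithmeticFunction.sigma_one_apply]
  exact Nat.mul_le_mul_left 24 (Finset.single_le_sum (f := fun d => d)
    (fun d _ => Nat.zero_le d) (Nat.mem_divisors.2 ⟨dvd_rfl, pow_ne_zero r hp.ne_zero⟩))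

theorem normHz_nonempty {p : ℕ} (hp : p.Prime) (h5 : 5 ≤ p) (r : ℕ) :
    (normHz (p ^ r)).Nonempty :=
  Finset.card_pos.1 (lt_of_lt_of_le (Nat.mul_pos (by norm_num) (pow_pos hp.pos r))
    (card_normHz_ge hp h5 r))

variable {p : ℕ}

/-- **The Chebyshev polynomials of a coordinate tend to mean zero.** -/
theorem tendsto_mean_chebyU (hp : p.Prime) (h5 : 5 ≤ p) {j : ℕ} (hj : 0 < j) {g : R4}
    (hg : ‖g‖ = 1) :
    Tendsto (fun r => meanOn (normHz (p ^ r)) fun x =>
      chebyU j (2 * ⟪spherePoint (p ^ r) x, g⟫)) atTop (𝓝 0) := by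
  have hp0 : (0 : ℝ) < p := Nat.cast_pos.2 hp.pos
  set U : ℕ → ℝ := fun r => ∑ x ∈ normHz (p ^ r), chebyU j (2 * ⟪spherePoint (p ^ r) x, g⟫)
  have h := tendsto_sum_trace hj hp h5 (g := dirMat g) (by rw [det_dirMat hg]; exact one_ne_zero)
  have e : ∀ r, (∑ x ∈ normHz (p ^ r), (symMat j (toMat x * dirMat g)).trace) /
      ((scale p j : ℝ) : ℂ) ^ r = ((U r / (p : ℝ) ^ r : ℝ) : ℂ) := fun r => by
    set s := Real.sqrt ((p ^ r : ℕ) : ℝ) with hsdef
    have hs : s ≠ 0 := (Real.sqrt_pos.2 (by exact_mod_cast pow_pos hp.pos r)).ne'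
    have hx : ∀ x ∈ normHz (p ^ r), (symMat j (toMat x * dirMat g)).trace =
        ((s ^ j * chebyU j (2 * ⟪spherePoint (p ^ r) x, g⟫) : ℝ) : ℂ) := fun x hx => by
      refine trace_symMat_cheby j ?_ ?_ hs
      · rw [trace_toMat_dirMat, spherePoint, real_inner_smul_left, ← hsdef]
        congr 1
        field_simp
      · rw [det_mul, det_dirMat hg, mul_one, det_toMat, (mem_normHz.1 hx).2, hsdef,
          Real.sq_sqrt (Nat.cast_nonneg _)]
        push_cast
        rfl
    have hsj : s ^ j = Real.sqrt ((p : ℝ) ^ j) ^ r := by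
      rw [hsdef, Nat.cast_pow, sqrt_pow_nat hp0.le, sqrt_pow_nat hp0.le, ← pow_mul, ← pow_mul,
        mul_comm]
    rw [Finset.sum_congr rfl hx, ← Complex.ofReal_sum, ← Complex.ofReal_pow,
      ← Complex.ofReal_div, ← Finset.mul_sum, scale, mul_pow, hsj, mul_div_mul_left]
    exact pow_ne_zero r (Real.sqrt_pos.2 (pow_pos hp0 j)).ne'
  have hU : Tendsto (fun r => U r / (p : ℝ) ^ r) atTop (𝓝 0) := by
    exact ((Complex.continuous_re.tendsto 0).comp (h.congr e)).congr fun r => Complex.ofReal_re _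
  refine squeeze_zero_norm (fun r => ?_) (tendsto_zero_iff_norm_tendsto_zero.1 hU)
  have hcard : (p : ℝ) ^ r ≤ ((normHz (p ^ r)).card : ℝ) := by
    have : p ^ r ≤ (normHz (p ^ r)).card := le_trans (by omega) (card_normHz_ge hp h5 r)
    exact_mod_cast this
  rw [meanOn, norm_div, norm_div, Real.norm_natCast, norm_pow, Real.norm_of_nonneg hp0.le]
  exact div_le_div_of_nonneg_left (norm_nonneg _) (pow_pos hp0 r) hcard

/-- **The moments.** -/
theorem tendsto_mean_moment (hp : p.Prime) (h5 : 5 ≤ p) {g : R4} (hg : ‖g‖ = 1) :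
    ∀ n i : ℕ, Tendsto (fun r => meanOn (normHz (p ^ r)) fun x =>
      (2 * ⟪spherePoint (p ^ r) x, g⟫) ^ n * chebyU i (2 * ⟪spherePoint (p ^ r) x, g⟫))
      atTop (𝓝 (moment n i)) := by
  intro n
  induction n with
  | zero =>
    intro i
    simp only [pow_zero, one_mul, moment_zero]
    rcases Nat.eq_zero_or_pos i with rfl | hi
    · rw [if_pos rfl]
      refine (tendsto_const_nhds (x := (1 : ℝ))).congr fun r => ?_
      simp only [meanOn, chebyU_zero, Finset.sum_const, nsmul_eq_mul, mul_one]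
      rw [div_self]
      exact Nat.cast_ne_zero.2 (normHz_nonempty hp h5 r).card_pos.ne'
    · rw [if_neg hi.ne']
      exact tendsto_mean_chebyU hp h5 hi hg
  | succ n ih =>
    intro i
    rw [moment_succ]
    match i with
    | 0 =>
      rw [if_pos rfl, add_zero]
      refine (ih 1).congr fun r => meanOn_congr fun x _ => ?_
      rw [chebyU_one, chebyU_zero, pow_succ, mul_one]
    | l + 1 =>
      rw [if_neg l.succ_ne_zero, Nat.add_sub_cancel]
      refine ((ih (l + 2)).add (ih l)).congr fun r => ?_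
      rw [← meanOn_add]
      refine meanOn_congr fun x _ => ?_
      rw [chebyU_add_two, pow_succ]
      ring

/-- **The marginals.** -/
theorem tendsto_marginal (hp : p.Prime) (h5 : 5 ≤ p) {g : R4} (hg : ‖g‖ = 1) {φ : ℝ → ℝ}
    (hφ : Continuous φ) :
    Tendsto (fun r => meanOn (normHz (p ^ r)) fun x => φ ⟪spherePoint (p ^ r) x, g⟫) atTop
      (𝓝 (semiMean fun t => φ (t / 2))) := by
  set χ : ℝ → ℝ := fun t => φ (max (-2) (min 2 t) / 2)
  have hχ : Continuous χ := hφ.comp (by fun_prop)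
  obtain ⟨B, hB⟩ := (isCompact_Icc (a := (-1 : ℝ)) (b := 1)).exists_bound_of_continuousOn
    hφ.continuousOn
  have hχB : ∀ t, |χ t| ≤ B := fun t => hB _ (by
    have h1 := le_max_left (-2 : ℝ) (min 2 t)
    have h2 : max (-2 : ℝ) (min 2 t) ≤ 2 := max_le (by norm_num) (min_le_left _ _)
    constructor <;> linarith)
  have hlim := tendsto_of_moments (ι := fun r => normHz (p ^ r))
    (fun r _ => ((normHz (p ^ r)).card : ℝ)⁻¹)
    (fun r x => 2 * ⟪spherePoint (p ^ r) x, g⟫)
    (Eventually.of_forall fun r _ => by positivity) (fun n => by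
      refine (tendsto_mean_moment hp h5 hg n 0).congr fun r => ?_
      simp only [chebyU_zero, mul_one, meanOn, div_eq_inv_mul, Finset.mul_sum]
      exact (Finset.sum_coe_sort (normHz (p ^ r)) fun x =>
        ((normHz (p ^ r)).card : ℝ)⁻¹ * (2 * ⟪spherePoint (p ^ r) x, g⟫) ^ n).symm) hχ hχB
  have hsemi : semiMean χ = semiMean fun t => φ (t / 2) :=
    FA.QuaternionTrace.semiMean_congr fun t ht => by
      simp only [χ, min_eq_right ht.2, max_eq_right ht.1]
  rw [hsemi] at hlim
  refine hlim.congr fun r => ?_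
  rw [meanOn, div_eq_inv_mul, Finset.mul_sum, ← Finset.sum_coe_sort (normHz (p ^ r))]
  refine Finset.sum_congr rfl fun x _ => ?_
  have hb := abs_real_inner_le_norm (spherePoint (p ^ r) x) g
  rw [norm_spherePoint (pow_ne_zero r hp.ne_zero) x.2, hg, one_mul, abs_le] at hb
  simp only [χ]
  rw [min_eq_right (by linarith [hb.2]), max_eq_right (by linarith [hb.1])]
  congr 2
  ring

end FA.SphereHecke

end
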