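import Fermat.Agent.SphereHecke.Marginal
import Mathlib.Analysis.InnerProductSpace.Projection.Reflection
import Mathlib.MeasureTheory.Integral.Average
import Mathlib.MeasureTheory.Measure.Haar.InnerProductSpace
import Mathlib.Probability.ConditionalProbability
import Mathlib.Topology.ContinuousMap.StoneWeierstrass

/-!
# Equidistribution on the sphere from the marginals

The marginals give the means of the exponentials of linear forms; being constant on the directions
these are the means over the sphere, and their span is dense by Stone and Weierstrass.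
-/

set_option autoImplicit false
set_option linter.unusedSectionVars false
set_option linter.style.haveILetI false

noncomputable section

open Filter MeasureTheory Metric
open scoped Topology RealInnerProductSpace
open FA.VerticalSatoTate (semiMean)

namespace FA.SphereHecke

/-- The radial projection. -/
def radial (x : R4) : R4 := ‖x‖⁻¹ • x

theorem measurable_radial : Measurable radial := measurable_norm.inv.smul measurable_id

/-- The uniform law on the sphere, as the law of the direction of a uniform point of the ball. -/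
def sphereLaw : Measure R4 := (ProbabilityTheory.cond volume (ball (0 : R4) 1)).map radial

instance isProbabilityMeasure_sphereLaw : IsProbabilityMeasure sphereLaw := by
  have : IsProbabilityMeasure (ProbabilityTheory.cond (volume : Measure R4) (ball (0 : R4) 1)) :=
    ProbabilityTheory.cond_isProbabilityMeasure_of_finite
      (measure_ball_pos volume 0 one_pos).ne' measure_ball_lt_top.ne
  exact Measure.isProbabilityMeasure_map measurable_radial.aemeasurable

theorem ae_norm_one : ∀ᵐ u ∂sphereLaw, ‖u‖ = 1 := by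
  have : Nontrivial R4 := ⟨⟨EuclideanSpace.single 0 1, 0, fun h => by
    simpa using congrArg norm h⟩⟩
  rw [sphereLaw, ae_map_iff measurable_radial.aemeasurable
    (measurableSet_eq_fun measurable_norm measurable_const)]
  refine ProbabilityTheory.cond_absolutelyContinuous.ae_le ?_
  filter_upwards [Measure.ae_ne volume (0 : R4)] with x hx
  rw [radial, norm_smul, norm_inv, norm_norm, inv_mul_cancel₀ (norm_ne_zero_iff.2 hx)]

theorem integrable_sphereLaw {φ : R4 → ℝ} (hφ : Continuous φ) : Integrable φ sphereLaw := by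
  obtain ⟨C, hC⟩ := (isCompact_sphere (0 : R4) 1).exists_bound_of_continuousOn hφ.continuousOn
  refine Integrable.of_bound hφ.aestronglyMeasurable C ?_
  filter_upwards [ae_norm_one] with u hu
  exact hC u (mem_sphere_zero_iff_norm.2 hu)

/-- The law as an average over the ball. -/
theorem integral_eq_average {φ : R4 → ℝ} (hφ : Continuous φ) :
    ∫ u, φ u ∂sphereLaw = ⨍ x in ball (0 : R4) 1, φ (‖x‖⁻¹ • x) := by
  rw [sphereLaw, integral_map measurable_radial.aemeasurable hφ.aestronglyMeasurable,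
    setAverage_eq']
  rfl

/-- **Invariance under isometries.** -/
theorem integral_comp_isometry (e : R4 ≃ₗᵢ[ℝ] R4) {φ : R4 → ℝ} (hφ : Continuous φ) :
    ∫ u, φ (e u) ∂sphereLaw = ∫ u, φ u ∂sphereLaw := by
  rw [integral_eq_average (φ := fun u => φ (e u)) (hφ.comp e.continuous), integral_eq_average hφ,
    setAverage_eq, setAverage_eq]
  congr 1
  have h := e.measurePreserving.setIntegral_preimage_emb e.toHomeomorph.measurableEmbedding
    (fun y => φ (‖y‖⁻¹ • y)) (ball (0 : R4) 1)
  have hball : (e : R4 → R4) ⁻¹' ball (0 : R4) 1 = ball (0 : R4) 1 := by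
    ext x
    simp
  rw [hball] at h
  rw [← h]
  simp only [map_smul, LinearIsometryEquiv.norm_map]

theorem exists_isometry {v w : R4} (h : ‖v‖ = ‖w‖) : ∃ e : R4 ≃ₗᵢ[ℝ] R4, e v = w :=
  ⟨Submodule.reflection (ℝ ∙ (v - w))ᗮ, Submodule.reflection_sub h⟩

theorem integral_exp_norm {v w : R4} (h : ‖v‖ = ‖w‖) :
    ∫ u, Real.exp ⟪v, u⟫ ∂sphereLaw = ∫ u, Real.exp ⟪w, u⟫ ∂sphereLaw := by
  obtain ⟨e, he⟩ := exists_isometry h
  rw [← integral_comp_isometry e (φ := fun u => Real.exp ⟪w, u⟫) (by fun_prop)]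
  simp only [← he, LinearIsometryEquiv.inner_map_map]

variable {ι : Type*} {s : ℕ → Finset ι} {y : ℕ → ι → R4}
  (hne : ∀ r, (s r).Nonempty) (hy : ∀ r, ∀ i ∈ s r, ‖y r i‖ = 1)
  (hmarg : ∀ e : R4, ‖e‖ = 1 → ∀ φ : ℝ → ℝ, Continuous φ →
    Tendsto (fun r => meanOn (s r) fun i => φ ⟪y r i, e⟫) atTop
      (𝓝 (semiMean fun t => φ (t / 2))))

include hne hy hmarg

/-- **The means of the exponentials.** -/
theorem tendsto_mean_exp (g : R4) :
    Tendsto (fun r => meanOn (s r) fun i => Real.exp ⟪g, y r i⟫) atTop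
      (𝓝 (∫ u, Real.exp ⟪g, u⟫ ∂sphereLaw)) := by
  set c := ‖g‖ with hcdef
  set L := semiMean fun t => Real.exp (c * (t / 2))
  have hdir : ∀ u : R4, ‖u‖ = 1 →
      Tendsto (fun r => meanOn (s r) fun i => Real.exp ⟪c • u, y r i⟫) atTop (𝓝 L) := fun u hu => by
    refine (hmarg u hu (fun t => Real.exp (c * t)) (by fun_prop)).congr fun r => ?_
    refine meanOn_congr fun i _ => ?_
    rw [real_inner_smul_left, real_inner_comm]
  obtain ⟨e, he, hge⟩ : ∃ e : R4, ‖e‖ = 1 ∧ c • e = g := by
    rcases eq_or_ne g 0 with rfl | hg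
    · exact ⟨EuclideanSpace.single 0 1, by simp, by simp [c]⟩
    · exact ⟨c⁻¹ • g, by rw [norm_smul, norm_inv, norm_norm,
        inv_mul_cancel₀ (norm_ne_zero_iff.2 hg)],
        smul_inv_smul₀ (norm_ne_zero_iff.2 hg) g⟩
  have hgL := hdir e he
  rw [hge] at hgL
  set F : ℕ → R4 → ℝ := fun r u => meanOn (s r) fun i => Real.exp ⟪c • u, y r i⟫
  have hF : ∀ r, Continuous (F r) := fun r =>
    (continuous_finsetSum _ fun i _ => by fun_prop).div_const _
  have hbound : ∀ r, ∀ᵐ u ∂sphereLaw, ‖F r u‖ ≤ Real.exp c := fun r => by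
    filter_upwards [ae_norm_one] with u hu
    simp only [F, meanOn]
    rw [norm_div, Real.norm_natCast, div_le_iff₀ (Nat.cast_pos.2 (hne r).card_pos)]
    refine (norm_sum_le _ _).trans ((Finset.sum_le_sum fun i hi => ?_).trans_eq (by
      rw [Finset.sum_const, nsmul_eq_mul, mul_comm]))
    rw [Real.norm_eq_abs, Real.abs_exp, Real.exp_le_exp]
    refine (real_inner_le_norm _ _).trans (le_of_eq ?_)
    rw [norm_smul, hu, hy r i hi, mul_one, mul_one, hcdef, norm_norm]
  have hlim : Tendsto (fun r => ∫ u, F r u ∂sphereLaw) atTop (𝓝 L) := by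
    have := tendsto_integral_of_dominated_convergence (fun _ => Real.exp c)
      (fun r => (hF r).aestronglyMeasurable) (integrable_const _) hbound
      (f := fun _ => L) (by filter_upwards [ae_norm_one] with u hu; exact hdir u hu)
    simpa using this
  have hconst : ∀ r, ∫ u, F r u ∂sphereLaw = ∫ u, Real.exp ⟪g, u⟫ ∂sphereLaw := fun r => by
    simp only [F, meanOn]
    rw [integral_div, integral_finsetSum _ fun i _ => integrable_sphereLaw (by fun_prop),
      Finset.sum_congr rfl fun i hi => show ∫ u, Real.exp ⟪c • u, y r i⟫ ∂sphereLaw =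
          ∫ u, Real.exp ⟪g, u⟫ ∂sphereLaw by
        rw [← integral_exp_norm (v := c • y r i) (w := g)
          (by rw [norm_smul, hy r i hi, mul_one, hcdef, norm_norm])]
        refine integral_congr_ae (Eventually.of_forall fun u => ?_)
        simp only [real_inner_smul_left]
        rw [real_inner_comm],
      Finset.sum_const, nsmul_eq_mul, mul_div_cancel_left₀]
    exact Nat.cast_ne_zero.2 (hne r).card_pos.ne'
  rw [tendsto_nhds_unique (tendsto_const_nhds.congr fun r => (hconst r).symm) hlim]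
  exact hgL

/-- **Equidistribution.** -/
theorem tendsto_sphere {φ : R4 → ℝ} (hφ : Continuous φ) :
    Tendsto (fun r => meanOn (s r) fun i => φ (y r i)) atTop
      (𝓝 (∫ u, φ u ∂sphereLaw)) := by
  let ef : R4 → C(sphere (0 : R4) 1, ℝ) := fun g =>
    ⟨fun u => Real.exp ⟪g, (u : R4)⟫, by fun_prop⟩
  set V := Submodule.span ℝ (Set.range ef)
  have hmul : ∀ f₁ f₂, f₁ ∈ V → f₂ ∈ V → f₁ * f₂ ∈ V := fun f₁ f₂ h₁ h₂ => by
    have := Submodule.mul_mem_mul h₁ h₂
    rw [Submodule.span_mul_span] at this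
    refine Submodule.span_mono ?_ this
    rintro _ ⟨_, ⟨a, rfl⟩, _, ⟨b, rfl⟩, rfl⟩
    exact ⟨a + b, ContinuousMap.ext fun u => by simp [ef, inner_add_left, Real.exp_add]⟩
  have hone : (1 : C(sphere (0 : R4) 1, ℝ)) ∈ V :=
    Submodule.subset_span ⟨0, ContinuousMap.ext fun u => by simp [ef]⟩
  have hsep : (V.toSubalgebra hone hmul).SeparatesPoints := fun u v huv => by
    refine ⟨_, ⟨ef ((u : R4) - v), Submodule.subset_span ⟨_, rfl⟩, rfl⟩, fun h => huv ?_⟩
    have h' : ⟪(u : R4) - v, (u : R4)⟫ = ⟪(u : R4) - v, (v : R4)⟫ := Real.exp_injective h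
    refine Subtype.ext (sub_eq_zero.1 (inner_self_eq_zero (𝕜 := ℝ).1 ?_))
    rw [inner_sub_right, h', sub_self]
  have hrepr : ∀ f ∈ V, ∃ q : R4 → ℝ, Continuous q ∧ (∀ u : sphere (0 : R4) 1, q u = f u) ∧
      Tendsto (fun r => meanOn (s r) fun i => q (y r i)) atTop (𝓝 (∫ u, q u ∂sphereLaw)) := by
    intro f hf
    induction hf using Submodule.span_induction with
    | mem f hf =>
      obtain ⟨g, rfl⟩ := hf
      exact ⟨_, by fun_prop, fun _ => rfl, tendsto_mean_exp hne hy hmarg g⟩
    | zero => exact ⟨0, continuous_zero, fun _ => rfl, by simp [meanOn]⟩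
    | add f₁ f₂ _ _ h₁ h₂ =>
      obtain ⟨q₁, c₁, e₁, t₁⟩ := h₁
      obtain ⟨q₂, c₂, e₂, t₂⟩ := h₂
      refine ⟨fun u => q₁ u + q₂ u, c₁.add c₂, fun u => by simp [e₁, e₂], ?_⟩
      rw [integral_add (integrable_sphereLaw c₁) (integrable_sphereLaw c₂)]
      exact (t₁.add t₂).congr fun r => (meanOn_add _ _ _).symm
    | smul a f₁ _ h₁ =>
      obtain ⟨q₁, c₁, e₁, t₁⟩ := h₁
      refine ⟨fun u => a * q₁ u, c₁.const_mul a, fun u => by simp [e₁], ?_⟩
      rw [integral_const_mul]
      exact (t₁.const_mul a).congr fun r => by simp [meanOn, Finset.mul_sum, mul_div_assoc']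
  rw [Metric.tendsto_nhds]
  intro ε hε
  obtain ⟨⟨f, hf⟩, hnear⟩ :=
    ContinuousMap.exists_mem_subalgebra_near_continuous_of_separatesPoints _ hsep
      (fun u : sphere (0 : R4) 1 => φ u) (by fun_prop) (ε / 3) (by positivity)
  obtain ⟨q, hq, hqf, hqlim⟩ := hrepr f hf
  have hclose : ∀ u : R4, ‖u‖ = 1 → |φ u - q u| ≤ ε / 3 := fun u hu => by
    have := hnear ⟨u, mem_sphere_zero_iff_norm.2 hu⟩
    rw [Real.norm_eq_abs, abs_sub_comm] at this
    rw [hqf ⟨u, mem_sphere_zero_iff_norm.2 hu⟩]
    exact this.le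
  have hint : |(∫ u, φ u ∂sphereLaw) - ∫ u, q u ∂sphereLaw| ≤ ε / 3 := by
    rw [← integral_sub (integrable_sphereLaw hφ) (integrable_sphereLaw hq)]
    have h := norm_integral_le_of_norm_le_const (μ := sphereLaw) (f := fun u => φ u - q u)
      (C := ε / 3) (by
        filter_upwards [ae_norm_one] with u hu
        exact hclose u hu)
    rwa [probReal_univ, mul_one] at h
  filter_upwards [Metric.tendsto_nhds.1 hqlim (ε / 3) (by positivity)] with r hr
  rw [Real.dist_eq] at hr ⊢
  have hm : |(meanOn (s r) fun i => φ (y r i)) - meanOn (s r) fun i => q (y r i)| ≤ ε / 3 := by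
    simp only [meanOn]
    rw [← sub_div, ← Finset.sum_sub_distrib, abs_div, Nat.abs_cast,
      div_le_iff₀ (Nat.cast_pos.2 (hne r).card_pos)]
    refine (Finset.abs_sum_le_sum_abs _ _).trans ((Finset.sum_le_sum fun i hi =>
      hclose _ (hy r i hi)).trans_eq ?_)
    rw [Finset.sum_const, nsmul_eq_mul, mul_comm]
  have h1 := abs_sub_le (meanOn (s r) fun i => φ (y r i)) (meanOn (s r) fun i => q (y r i))
    (∫ u, φ u ∂sphereLaw)
  have h2 := abs_sub_le (meanOn (s r) fun i => q (y r i)) (∫ u, q u ∂sphereLaw)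
    (∫ u, φ u ∂sphereLaw)
  rw [abs_sub_comm] at hint
  linarith

end FA.SphereHecke

end
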